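import Fermat.Statements.S24
import Fermat.Agent.S24.Branch
import Fermat.Agent.S24.Degree
import Fermat.Agent.S24.EmbedFN
import Fermat.Agent.S24.EmbedCusp
import Fermat.Agent.S24.Hermite

set_option autoImplicit false
open ModularCurve

namespace Fermat.Agent.S24

open UpperHalfPlane CongruenceSubgroup
open scoped MatrixGroups

theorem stabiliser_Gamma0 (N : ℕ) [NeZero N] (g : SL(2, ℤ))
    (h : ∀ τ : ℍ, JLocal.kleinJ (mulH N (g • τ)) = JLocal.kleinJ (mulH N τ)) : g ∈ Gamma0 N :=
  mem_Gamma0_of_kleinJ_mulH_smul_eq g h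

theorem translate_mem_Rcusp (N : ℕ) [NeZero N] (g : SL(2, ℤ)) (a : FNAdjoin.A N) :
    Embed.translate (EmbedFN.PsiA N) g a ∈ CuspRing.Rcusp N := by
  have key : (fun τ => EmbedFN.PsiA N a (g⁻¹ • τ)) ∈ CuspRing.Rcusp N := by
    refine EmbedFN.PsiA_induction
      (P := fun f => (fun τ => f (g⁻¹ • τ)) ∈ CuspRing.Rcusp N) ?_ ?_ ?_ ?_ a
    · intro d _ hd
      have hd0 : 0 < d := Nat.pos_of_ne_zero (NeZero.ne d)
      obtain ⟨a', b, e, ha, hb, hae, -, h⟩ := exists_kleinJ_mul_smul d hd0 g⁻¹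
      have he : 0 < e := lt_of_le_of_lt (Nat.zero_le _) hb
      have heN : e ∣ N := (Dvd.intro_left a' hae).trans hd
      have hfun : (fun τ => JLocal.kleinJ (mulH d (g⁻¹ • τ))) =
          JLocal.kleinJ ∘ (affH a' b e) := by
        funext τ
        exact h τ _ (coe_mulH d _)
      show (fun τ => JLocal.kleinJ (mulH d (g⁻¹ • τ))) ∈ CuspRing.Rcusp N
      rw [hfun]
      obtain ⟨m, hm⟩ := heN
      have hm0 : m ≠ 0 := by
        rintro rfl
        exact NeZero.ne N (by rw [hm, mul_zero])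
      refine CuspRing.kleinJ_comp_mem (a := a') (d := e) (e := a' * m) (b := (b : ℤ)) he.ne'
        (mul_ne_zero ha.ne' hm0) (by rw [hm]; ring) fun τ => ?_
      rw [coe_affH ha he]
      push_cast
      rfl
    · intro c
      exact CuspRing.const_mem N c
    · intro f f' hf hf'
      exact (CuspRing.Rcusp N).add_mem hf hf'
    · intro f f' hf hf'
      exact (CuspRing.Rcusp N).mul_mem hf hf'
  exact key

theorem result (N : ℕ) [NeZero N]
    [AlgebraicCurve.HasCanonicalDivisor (K := AlgebraicClosure ℚ) (F := ↥(ModularCurve.modularFunctionFieldBar N))] :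
    (AlgebraicCurve.genus (AlgebraicClosure ℚ) ↥(ModularCurve.modularFunctionFieldBar N) : ℚ)
      = ModularCurve.genusFormula N := by
  have Hc := stabiliser_Gamma0 N
  have := finiteDimensional_jF N
  obtain ⟨fam0⟩ := EmbedFN.f0 N Hc
  exact genus_eq_genusFormula_of_families (k := Kbar) (F := FN N) N (jF N) (transcendental_jF N)
    (finrank_jF_of_family N fam0) (EmbedFN.fgen N Hc) ⟨fam0⟩ (EmbedFN.f1728 N Hc)
    (EmbedCusp.nonempty_localFamily_cusp (F := FN N) (EmbedFN.realisation N Hc) N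
      (translate_mem_Rcusp N))

end Fermat.Agent.S24
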