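-- Statement S23: integral structure on weight 2 cusp forms for Gamma0(N).
import Fermat.Statements.S23
import Fermat.Agent.Lib.IS.Final
import Fermat.Agent.Lib.IS.Theta

set_option autoImplicit false
open CuspForm

namespace Fermat.Agent.S23

/-- The integral structure theorem in every weight. -/
theorem hasIntegralStructure (N : ℕ) [NeZero N] (k : ℤ) : CuspForm.HasIntegralStructure N k := by
  obtain ⟨Q, hQ⟩ := Fermat.Agent.Lib.IS.theta_hasIntQ N
  exact Fermat.Agent.Lib.IS.hasIntegralStructure_of_theta N k
    ⟨4, Fermat.Agent.Lib.IS.theta N, ⟨Q, hQ.symm⟩,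
      Fermat.Agent.Lib.IS.quotientFunc_theta_injective N⟩

theorem result (N : ℕ) [NeZero N] : CuspForm.HasIntegralStructure N 2 := by
  exact hasIntegralStructure N 2

end Fermat.Agent.S23
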