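import Fermat.Statements.S02

set_option autoImplicit false
open FreyPackage

namespace Fermat.Agent.S02

/-- Final step: coprime, `b` even, `a` odd. -/
theorem step3 (a b c : ℤ) (ha : a ≠ 0) (hb : b ≠ 0) (hc : c ≠ 0) (p : ℕ) (pp : p.Prime)
    (hp5 : 5 ≤ p) (H : a ^ p + b ^ p = c ^ p) (hab : gcd a b = 1) (hb2 : (2 : ℤ) ∣ b) :
    Nonempty FreyPackage := by
  have hpodd : Odd p := pp.odd_of_ne_two (by omega)
  have hb2' : (b : ZMod 2) = 0 := (ZMod.intCast_zmod_eq_zero_iff_dvd b 2).2 hb2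
  have ha_odd : ¬ (2 : ℤ) ∣ a := by
    intro h2a
    have : (2 : ℤ) ∣ gcd a b := dvd_gcd h2a hb2
    rw [hab] at this
    norm_num at this
  have h4 : a % 4 = 1 ∨ a % 4 = 3 := by omega
  rcases h4 with h4 | h4
  · refine ⟨⟨-a, -b, -c, neg_ne_zero.2 ha, neg_ne_zero.2 hb, neg_ne_zero.2 hc, p, pp, hp5, ?_, ?_,
      ?_, ?_⟩⟩
    · rw [hpodd.neg_pow, hpodd.neg_pow, hpodd.neg_pow, ← H]; ring
    · rw [gcd_neg, neg_gcd]; exact hab
    · have : ((-a : ℤ) : ZMod 4) = ((3 : ℤ) : ZMod 4) := by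
        rw [ZMod.intCast_eq_intCast_iff_dvd_sub]
        push_cast
        omega
      rw [this]; norm_num
    · push_cast; rw [hb2']; simp
  · refine ⟨⟨a, b, c, ha, hb, hc, p, pp, hp5, H, hab, ?_, hb2'⟩⟩
    have : ((a : ℤ) : ZMod 4) = ((3 : ℤ) : ZMod 4) := by
      rw [ZMod.intCast_eq_intCast_iff_dvd_sub]
      push_cast
      omega
    rw [this]; norm_num

/-- Coprime case. -/
theorem step2 (a b c : ℤ) (ha : a ≠ 0) (hb : b ≠ 0) (hc : c ≠ 0) (p : ℕ) (pp : p.Prime)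
    (hp5 : 5 ≤ p) (H : a ^ p + b ^ p = c ^ p) (hab : gcd a b = 1) :
    Nonempty FreyPackage := by
  have hpodd : Odd p := pp.odd_of_ne_two (by omega)
  have hp0 : p ≠ 0 := by omega
  by_cases hb2 : (2 : ℤ) ∣ b
  · exact step3 a b c ha hb hc p pp hp5 H hab hb2
  by_cases ha2 : (2 : ℤ) ∣ a
  · exact step3 b a c hb ha hc p pp hp5 (by rw [add_comm]; exact H) (by rw [gcd_comm]; exact hab) ha2
  -- both odd so c is even
  have hc2 : (2 : ℤ) ∣ c := by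
    have ha' : Odd a := by rw [← Int.not_even_iff_odd, even_iff_two_dvd]; exact ha2
    have hb' : Odd b := by rw [← Int.not_even_iff_odd, even_iff_two_dvd]; exact hb2
    have h1 : Even (c ^ p) := by rw [← H]; exact (ha'.pow).add_odd (hb'.pow)
    have h2 : Even c := (Int.even_pow.1 h1).1
    exact even_iff_two_dvd.1 h2
  refine step3 a (-c) (-b) ha (neg_ne_zero.2 hc) (neg_ne_zero.2 hb) p pp hp5 ?_ ?_
    ((dvd_neg).2 hc2)
  · rw [hpodd.neg_pow, hpodd.neg_pow, ← H]; ring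
  · rw [gcd_neg, ← gcdab_eq_gcdac (Nat.pos_of_ne_zero hp0) H]; exact hab

theorem result (a b c : ℤ) (ha : a ≠ 0) (hb : b ≠ 0) (hc : c ≠ 0) (p : ℕ) (pp : p.Prime) (hp5 : 5 ≤ p) (H : a ^ p + b ^ p = c ^ p) : Nonempty FreyPackage := by
  have hp0 : p ≠ 0 := by omega
  have hpos : 0 < Int.gcd a b := Int.gcd_pos_of_ne_zero_left b ha
  obtain ⟨g, a', b', hg, hcop, ha', hb'⟩ := Int.exists_gcd_one' hpos
  have hg0 : (g : ℤ) ≠ 0 := by exact_mod_cast hg.ne'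
  have hgc : (g : ℤ) ∣ c := by
    rw [← Int.pow_dvd_pow_iff hp0, ← H, ha', hb', mul_pow, mul_pow, ← add_mul]
    exact dvd_mul_left _ _
  obtain ⟨c', hc'⟩ := hgc
  have ha0 : a' ≠ 0 := by rintro rfl; simp at ha'; exact ha ha'
  have hb0 : b' ≠ 0 := by rintro rfl; simp at hb'; exact hb hb'
  have hc0 : c' ≠ 0 := by rintro rfl; simp at hc'; exact hc hc'
  refine step2 a' b' c' ha0 hb0 hc0 p pp hp5 ?_ ?_
  · have hgp : (g : ℤ) ^ p ≠ 0 := pow_ne_zero _ hg0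
    apply mul_right_cancel₀ hgp
    rw [add_mul, ← mul_pow, ← mul_pow, ← ha', ← hb', H, hc', mul_pow]
    ring
  · change ((Int.gcd a' b' : ℕ) : ℤ) = 1
    rw [hcop]; rfl

end Fermat.Agent.S02
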