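import Fermat.Statements.S05
import Fermat.Agent.S05.General

set_option autoImplicit false
open WeierstrassCurve WeierstrassCurve.Affine WeierstrassCurve.Affine.Point
open CuspForm ModularFormClass UpperHalfPlane
open FreyPackage

namespace Fermat.Agent.S05

section arith

variable {K : Type*} [Field K] {Γ₀ : Type*} [LinearOrderedCommGroupWithZero Γ₀]
  (v : Valuation K Γ₀)

lemma valInt_le (n : ℤ) : v (n : K) ≤ 1 := by
  rcases Int.eq_nat_or_neg n with ⟨m, rfl | rfl⟩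
  · simpa using le1_natCast v m
  · simpa using le1_natCast v m

lemma valInt_lt_one {q : ℕ} (hq : v (q : K) < 1) {n : ℤ} (hn : (q : ℤ) ∣ n) : v (n : K) < 1 := by
  obtain ⟨t, rfl⟩ := hn
  push_cast
  exact lt1_mul_left v hq (valInt_le v t)

lemma valInt_eq_one {q : ℕ} (hqp : q.Prime) (hq : v (q : K) < 1) {n : ℤ} (hn : ¬ (q : ℤ) ∣ n) :
    v (n : K) = 1 := by
  apply le_antisymm (valInt_le v n)
  by_contra hlt
  push Not at hlt
  have hcop : IsCoprime (q : ℤ) n :=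
    (Prime.coprime_iff_not_dvd (Nat.prime_iff_prime_int.mp hqp)).mpr hn
  obtain ⟨a, b, hab⟩ := hcop
  have h1 : (a : K) * (q : K) + (b : K) * (n : K) = 1 := by exact_mod_cast congrArg (Int.cast : ℤ → K) hab
  have h2 : v ((a : K) * (q : K) + (b : K) * (n : K)) < 1 :=
    lt1_add v (lt1_mul_right v (valInt_le v a) hq) (lt1_mul_right v (valInt_le v b) hlt)
  rw [h1, map_one] at h2
  exact lt_irrefl _ h2

end arith

section frey

lemma frey_b₂ (P : FreyPackage) : P.freyCurve.b₂ = (P.b : ℚ) ^ P.p - (P.a : ℚ) ^ P.p := by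
  simp only [FreyPackage.freyCurve, WeierstrassCurve.b₂]
  ring

lemma frey_b₄ (P : FreyPackage) : P.freyCurve.b₄ = -((P.a : ℚ) ^ P.p * (P.b : ℚ) ^ P.p) / 8 := by
  simp only [FreyPackage.freyCurve, WeierstrassCurve.b₄]
  ring

lemma frey_b₆ (P : FreyPackage) : P.freyCurve.b₆ = 0 := by
  simp only [FreyPackage.freyCurve, WeierstrassCurve.b₆]
  ring

lemma frey_FLT (P : FreyPackage) : (P.a : ℚ) ^ P.p + (P.b : ℚ) ^ P.p = (P.c : ℚ) ^ P.p := by
  exact_mod_cast P.hFLT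

lemma not_dvd_of_gcd {q : ℕ} (hq : q.Prime) {m n : ℤ} (hg : gcd m n = 1) (hm : (q : ℤ) ∣ m) :
    ¬ (q : ℤ) ∣ n := by
  intro hn
  have h1 : (q : ℤ) ∣ gcd m n := dvd_gcd hm hn
  rw [hg] at h1
  exact (Nat.prime_iff_prime_int.mp hq).not_dvd_one h1

variable {K : Type*} [Field K] [Algebra ℚ K] {Γ₀ : Type*} [LinearOrderedCommGroupWithZero Γ₀]
  (v : Valuation K Γ₀)

lemma val_pow_div_four (h2 : v (2 : K) = 1) (n : ℤ) (p : ℕ) :
    v (algebraMap ℚ K ((n : ℚ) ^ p / 4)) = v (algebraMap ℚ K (n : ℚ)) ^ p := by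
  rw [map_div₀, map_div₀, map_pow, map_pow, map_ofNat, v_four h2, div_one]

lemma val_neg_pow_div_four (h2 : v (2 : K) = 1) (n : ℤ) (p : ℕ) :
    v (algebraMap ℚ K (-(n : ℚ) ^ p / 4)) = v (algebraMap ℚ K (n : ℚ)) ^ p := by
  rw [neg_div, map_neg, Valuation.map_neg, val_pow_div_four v h2]

end frey

theorem frey_fix {K : Type*} [Field K] [DecidableEq K] [Algebra ℚ K] [CharZero K]
    (P : FreyPackage) {q : ℕ} (hq : q.Prime) (hq2 : q ≠ 2) (hqp : q ≠ P.p)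
    (A : ValuationSubring K) (hvq : A.valuation ((q : ℕ) : K) < 1) {σ : K ≃ₐ[ℚ] K}
    (hσ : σ ∈ A.inertiaSubgroupIn ℚ) (x : (P.freyCurve⁄K).Point) (hx : P.p • x = 0) :
    σ • x = x := by
  have hp := P.pp
  have hp2 : P.p ≠ 2 := by have := P.hp5; omega
  have one_of : ∀ {n : ℤ}, ¬ (q : ℤ) ∣ n →
      A.valuation (algebraMap ℚ K (n : ℚ)) = 1 := by
    intro n hn
    rw [map_intCast]
    exact valInt_eq_one _ hq hvq hn
  have le_of : ∀ (n : ℤ), A.valuation (algebraMap ℚ K (n : ℚ)) ≤ 1 := by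
    intro n
    rw [map_intCast]
    exact valInt_le _ n
  have h2 : A.valuation (2 : K) = 1 := by
    have : ¬ (q : ℤ) ∣ (2 : ℤ) := by
      intro h
      have h' : q ∣ 2 := by exact_mod_cast h
      exact hq2 ((Nat.prime_dvd_prime_iff_eq hq Nat.prime_two).mp h')
    have h3 := valInt_eq_one A.valuation hq hvq this
    simpa using h3
  have hvp : A.valuation ((P.p : ℕ) : K) = 1 := by
    have : ¬ (q : ℤ) ∣ (P.p : ℤ) := by
      intro h
      have h' : q ∣ P.p := by exact_mod_cast h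
      exact hqp ((Nat.prime_dvd_prime_iff_eq hq hp).mp h')
    have h3 := valInt_eq_one A.valuation hq hvq this
    simpa using h3
  have hFLT := frey_FLT P
  have ha0 : (P.a : ℚ) ^ P.p ≠ 0 := pow_ne_zero _ (by exact_mod_cast P.ha0)
  have hb0 : (P.b : ℚ) ^ P.p ≠ 0 := pow_ne_zero _ (by exact_mod_cast P.hb0)
  have hc0 : (P.c : ℚ) ^ P.p ≠ 0 := pow_ne_zero _ (by exact_mod_cast P.hc0)
  by_cases hb : (q : ℤ) ∣ P.b
  · have ha : ¬ (q : ℤ) ∣ P.a := not_dvd_of_gcd hq (by rw [gcd_comm]; exact P.hgcdab) hb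
    have hc : ¬ (q : ℤ) ∣ P.c := not_dvd_of_gcd hq P.hgcdbc hb
    refine fix_of_inertia P.freyCurve A hσ (e := 0) (α := -(P.b : ℚ) ^ P.p / 4)
      (β := (P.a : ℚ) ^ P.p / 4) ?_ ?_ ?_ ?_ ?_ ?_ ?_ h2 hp hp2 hvp ?_ _ hx
    · rw [frey_b₂]; ring
    · rw [frey_b₄]; ring
    · rw [frey_b₆]; ring
    · rw [val_neg_pow_div_four _ h2]; exact pow_le_one' (le_of _) _
    · exact div_ne_zero (neg_ne_zero.mpr hb0) (by norm_num)
    · rw [val_pow_div_four _ h2, one_of ha, one_pow]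
    · have : -(P.b : ℚ) ^ P.p / 4 - (P.a : ℚ) ^ P.p / 4 = -(P.c : ℚ) ^ P.p / 4 := by
        rw [← hFLT]; ring
      rw [this, val_neg_pow_div_four _ h2, one_of hc, one_pow]
    · intro _
      exact ⟨(P.b : ℚ), val_neg_pow_div_four _ h2 _ _⟩
  by_cases hc : (q : ℤ) ∣ P.c
  · have ha : ¬ (q : ℤ) ∣ P.a := not_dvd_of_gcd hq (by rw [gcd_comm]; exact P.hgcdac) hc
    refine fix_of_inertia P.freyCurve A hσ (e := (P.a : ℚ) ^ P.p / 4) (α := -(P.c : ℚ) ^ P.p / 4)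
      (β := -(P.a : ℚ) ^ P.p / 4) ?_ ?_ ?_ ?_ ?_ ?_ ?_ h2 hp hp2 hvp ?_ _ hx
    · rw [frey_b₂, ← hFLT]; ring
    · rw [frey_b₄, ← hFLT]; ring
    · rw [frey_b₆]; ring
    · rw [val_neg_pow_div_four _ h2]; exact pow_le_one' (le_of _) _
    · exact div_ne_zero (neg_ne_zero.mpr hc0) (by norm_num)
    · rw [val_neg_pow_div_four _ h2, one_of ha, one_pow]
    · have : -(P.c : ℚ) ^ P.p / 4 - -(P.a : ℚ) ^ P.p / 4 = -(P.b : ℚ) ^ P.p / 4 := by
        rw [← hFLT]; ring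
      rw [this, val_neg_pow_div_four _ h2, one_of hb, one_pow]
    · intro _
      exact ⟨(P.c : ℚ), val_neg_pow_div_four _ h2 _ _⟩
  · refine fix_of_inertia P.freyCurve A hσ (e := 0) (α := (P.a : ℚ) ^ P.p / 4)
      (β := -(P.b : ℚ) ^ P.p / 4) ?_ ?_ ?_ ?_ ?_ ?_ ?_ h2 hp hp2 hvp ?_ _ hx
    · rw [frey_b₂]; ring
    · rw [frey_b₄]; ring
    · rw [frey_b₆]; ring
    · rw [val_pow_div_four _ h2]; exact pow_le_one' (le_of _) _
    · exact div_ne_zero ha0 (by norm_num)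
    · rw [val_neg_pow_div_four _ h2, one_of hb, one_pow]
    · have : (P.a : ℚ) ^ P.p / 4 - -(P.b : ℚ) ^ P.p / 4 = (P.c : ℚ) ^ P.p / 4 := by
        rw [← hFLT]; ring
      rw [this, val_pow_div_four _ h2, one_of hc, one_pow]
    · intro _
      exact ⟨(P.a : ℚ), val_pow_div_four _ h2 _ _⟩

theorem result (P : FreyPackage) {q : ℕ} (hq : q.Prime) (hq2 : q ≠ 2) (hqp : q ≠ P.p) : P.GaloisRepUnramifiedAt q := by
  intro A hA σ hσ x
  apply Subtype.ext
  have hx := x.2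
  rw [Submodule.mem_torsionBy_iff, natCast_zsmul] at hx
  exact frey_fix P hq hq2 hqp A (A.mem_nonunits_iff.mp hA) hσ x.1 hx

end Fermat.Agent.S05
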