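import Fermat.Statements.S10
import Fermat.Agent.Lib.Kummer.Frey
import Fermat.Agent.Lib.Kummer.SophieGermain
import Fermat.Agent.Lib.Kummer.CaseII
import Fermat.Agent.Lib.Kummer.Kummer5
import Fermat.Agent.Lib.Kummer.Kummer7
import Fermat.Agent.Lib.Kummer.Kummer13
import Fermat.Agent.Lib.Kummer.PID7
import Fermat.Agent.Lib.Kummer.PID13

set_option autoImplicit false
open WeierstrassCurve WeierstrassCurve.Affine WeierstrassCurve.Affine.Point
open CuspForm ModularFormClass UpperHalfPlane
open FreyPackage

namespace Fermat.Agent.S10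

open Fermat.Agent.Lib.Kummer in
set_option backward.isDefEq.respectTransparency false in
theorem pid_five :
    IsPrincipalIdealRing (NumberField.RingOfIntegers (CyclotomicField 5 ℚ)) :=
  IsCyclotomicExtension.Rat.five_pid (CyclotomicField 5 ℚ)

open Fermat.Agent.Lib.Kummer in
theorem no_frey_five (P : FreyPackage) (hp : P.p = 5) : False :=
  haveI : Fact (Nat.Prime 5) := ⟨by norm_num⟩
  no_freyPackage caseI_five (caseII 5 (by norm_num) pid_five kummerLemma_five) P hp

open Fermat.Agent.Lib.Kummer in
theorem no_frey_seven (P : FreyPackage) (hp : P.p = 7) : False :=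
  haveI : Fact (Nat.Prime 7) := ⟨by norm_num⟩
  no_freyPackage caseI_seven (caseII 7 (by norm_num) pid_seven kummerLemma_seven) P hp

open Fermat.Agent.Lib.Kummer in
theorem no_frey_thirteen (P : FreyPackage) (hp : P.p = 13) : False :=
  haveI : Fact (Nat.Prime 13) := ⟨by norm_num⟩
  no_freyPackage caseI_thirteen (caseII 13 (by norm_num) pid_thirteen kummerLemma_thirteen) P hp

theorem result (P : FreyPackage) (hp : P.p = 5 ∨ P.p = 7 ∨ P.p = 13) : ¬ HasGaloisStableCofixedLine (K := AlgebraicClosure ℚ) ℚ P.freyCurve P.p := by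
  exfalso
  rcases hp with hp | hp | hp
  · exact no_frey_five P hp
  · exact no_frey_seven P hp
  · exact no_frey_thirteen P hp

end Fermat.Agent.S10
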