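import Fermat.Statements.S11
import Fermat.Agent.Lib.Kummer.Frey
import Fermat.Agent.Lib.Kummer.CaseII
import Fermat.Agent.Lib.Kummer.SophieGermain
import Fermat.Agent.Lib.Kummer.Kummer11
import Fermat.Agent.Lib.Kummer.PID11

set_option autoImplicit false
open WeierstrassCurve WeierstrassCurve.Affine WeierstrassCurve.Affine.Point
open CuspForm ModularFormClass UpperHalfPlane
open FreyPackage

namespace Fermat.Agent.S11

theorem result (P : FreyPackage) (hp : P.p = 11) : ¬ HasGaloisStableCofixedLine (K := AlgebraicClosure ℚ) ℚ P.freyCurve P.p := by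
  have : Fact (Nat.Prime 11) := ⟨by norm_num⟩
  exact (Fermat.Agent.Lib.Kummer.no_freyPackage Fermat.Agent.Lib.Kummer.caseI_eleven
    (Fermat.Agent.Lib.Kummer.caseII 11 (by norm_num) Fermat.Agent.Lib.Kummer.pid_eleven
      Fermat.Agent.Lib.Kummer.kummerLemma_eleven) P hp).elim

end Fermat.Agent.S11
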