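-- Statement S17: Mordell-Weil for `J₀(N)`.
import Fermat.Statements.S17
import Fermat.Agent.S17.Contracts
import Fermat.Agent.S17.Glob.Main
import Fermat.Agent.S17.GF.Main
import Fermat.Agent.S17.BR.Final
import Fermat.Agent.S17.WMWMain

set_option autoImplicit false
open ModularCurve AlgebraicCurve
open ModularCurve ModularCurve.JZero

namespace Fermat.Agent.S17

theorem result (N : ℕ) [NeZero N] (hN : N.Prime) (hN5 : 5 ≤ N) :
    AddGroup.FG ↥(FixedPoints.addSubgroup ((AlgebraicClosure ℚ) ≃ₐ[ℚ] (AlgebraicClosure ℚ)) (JZero N)) :=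
  fg_of_contracts N stmtGLOB GF.stmtGF (BR.stmtBR N) (stmtWMW N)

end Fermat.Agent.S17
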