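import Fermat.Statements.S18
import Fermat.Agent.GAL.KL.All
import Fermat.Agent.GAL.Hecke.Normalise
import Fermat.Agent.S18.Core

set_option autoImplicit false
open ModularCurve

namespace Fermat.Agent.S18

open AlgebraicCurve Fermat.Agent.S24 Fermat.Agent.GAL Fermat.Agent.GAL.Hecke

/-- Lifting an element of the level `N` field in characteristic `ℓ` as a quotient of honest integral
series. -/
theorem exists_lift_frac (A : ValuationSubring Kbar) (N : ℕ) [NeZero N]
    (hN : ((N : ℕ) : IsLocalRing.ResidueField A) ≠ 0)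
    (x : LaurentSeries (IsLocalRing.ResidueField A))
    (hx : x ∈ modularFunctionFieldFullC (IsLocalRing.ResidueField A) N) :
    ∃ W S : LaurentSeries A, incl A W ∈ modularFunctionFieldBar N ∧
      incl A S ∈ modularFunctionFieldBar N ∧
      red A W ∈ modularFunctionFieldFullC (IsLocalRing.ResidueField A) N ∧
      red A S ∈ modularFunctionFieldFullC (IsLocalRing.ResidueField A) N ∧
      red A S ≠ 0 ∧ red A W = x * red A S := by
  obtain ⟨y, hyF, hy⟩ := Gauss.gRes_surjective A N hN x hx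
  obtain ⟨n, z, -, hz, -, -⟩ := Gauss.exists_gaussBasis A N hN
  obtain ⟨w, S, hS, hw, hwr, e⟩ := hz.isFrac y hyF
  have hSne := Gauss.pA_evA_ne_zero A S hS
  refine ⟨w, Gauss.evA A S, ?_, ?_, hwr, Gauss.adjoin_j_le _ N (Gauss.pA_evA_mem A S), hSne, ?_⟩
  · rw [modularFunctionFieldBar_eq_fullC]; exact hw
  · rw [modularFunctionFieldBar_eq_fullC]; exact Gauss.adjoin_j_le Kbar N (Gauss.iA_evA_mem A S)
  · have h1 := Gauss.IsFrac.gRes_eq A hS e
    rw [hy] at h1
    rw [h1]
    exact (div_mul_cancel₀ _ hSne).symm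

/-- normalisation, with the reductions in the characteristic `ℓ` field. -/
theorem exists_normalise' (A : ValuationSubring Kbar) (N : ℕ) [NeZero N]
    (hN : ((N : ℕ) : IsLocalRing.ResidueField A) ≠ 0) (f : FN N) (hf : f ≠ 0) :
    ∃ (c : Kbar) (P Q : LaurentSeries A), c ≠ 0 ∧ red A P ≠ 0 ∧ red A Q ≠ 0 ∧
      incl A P ∈ modularFunctionFieldBar N ∧ incl A Q ∈ modularFunctionFieldBar N ∧
      red A P ∈ modularFunctionFieldFullC (IsLocalRing.ResidueField A) N ∧
      red A Q ∈ modularFunctionFieldFullC (IsLocalRing.ResidueField A) N ∧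
      (f : LaurentSeries Kbar) * incl A Q = algebraMap Kbar (LaurentSeries Kbar) c * incl A P := by
  have hfm : (f : LaurentSeries Kbar) ∈ modularFunctionFieldFullC Kbar N := by
    rw [← modularFunctionFieldBar_eq_fullC]
    exact f.2
  have hf0 : (f : LaurentSeries Kbar) ≠ 0 := fun h => hf (Subtype.ext h)
  obtain ⟨c, P, Q, hc, hP, hQ, hP0, hQ0, hPr, hQr, h⟩ :=
    Gauss.normalise_frac A N hN _ hfm hf0
  refine ⟨c, P, Q, hc, hP0, hQ0, ?_, ?_, hPr, hQr, ?_⟩
  · rw [modularFunctionFieldBar_eq_fullC]; exact hP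
  · rw [modularFunctionFieldBar_eq_fullC]; exact hQ
  · rw [mul_comm, algebraMap_laurentSeries_eq_single]
    exact h

/-- "`x` has an integral `q`-expansion with nonzero reduction `x'`". -/
def IsInt (A : ValuationSubring Kbar) (N : ℕ) (x : FN N)
    (x' : Igusa.E (IsLocalRing.ResidueField A) N) : Prop :=
  ∃ y : LaurentSeries A, (x : LaurentSeries Kbar) = incl A y ∧
    (x' : LaurentSeries (IsLocalRing.ResidueField A)) = red A y ∧ x' ≠ 0

theorem isPrincipal_of (N : ℕ) [NeZero N] (A : ValuationSubring Kbar)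
    (hN : ((N : ℕ) : IsLocalRing.ResidueField A) ≠ 0) (m : ℕ)
    (hmk : ((m : ℕ) : IsLocalRing.ResidueField A) ≠ 0)
    (r : Place Kbar (FN N) →
      Place (IsLocalRing.ResidueField A) (Igusa.E (IsLocalRing.ResidueField A) N))
    (hr : IsPlaceReductionModL A N r)
    (D : Divisor Kbar (FN N)) (hmD : Divisor.IsPrincipal (m • D))
    (hrD : Divisor.IsPrincipal (Finsupp.mapDomain r D)) : Divisor.IsPrincipal D := by
  classical
  have hm0 : m ≠ 0 := by
    rintro rfl
    exact hmk (by simp)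
  haveI := INJ.isAlgClosed_residueField A
  haveI : Lib.RR.IsFF (IsLocalRing.ResidueField A) (Igusa.E (IsLocalRing.ResidueField A) N) :=
    Igusa.isFF_E _ N hN
  haveI : HasPrincipalDivisors Kbar (FN N) := by
    haveI := finiteDimensional_jF N
    exact S24.hasPrincipalDivisors (jF N) (transcendental_jF N)
  refine core r (IsInt A N) ?_ ?_ ?_ ?_ ?_ ?_ ?_ m hm0 ?_ ?_ D hmD hrD
  · exact ⟨1, by simp, by simp, one_ne_zero⟩
  · rintro x y x' y' ⟨a, ha, ha', hx'⟩ ⟨b, hb, hb', hy'⟩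
    refine ⟨a * b, ?_, ?_, mul_ne_zero hx' hy'⟩
    · rw [map_mul, ← ha, ← hb]; rfl
    · rw [map_mul, ← ha', ← hb']; rfl
  · rintro x x' ⟨a, ha, ha', hx'⟩
    refine ⟨?_, hx'⟩
    rintro rfl
    apply hx'
    have h0 : a = 0 := incl_injective A (by rw [← ha, map_zero]; rfl)
    apply Subtype.ext
    rw [ha', h0, map_zero]; rfl
  · rintro ⟨x, hxm⟩ ⟨x', hxm'⟩ ⟨y, hx, hx', hne⟩ D hD Q
    simp only at hx hx'
    subst hx
    subst hx'
    exact hr.2 y hxm hxm' (fun h0 => hne (Subtype.ext h0)) D hD Q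
  · intro f hf
    obtain ⟨c, P, Q, hc, hP0, hQ0, hP, hQ, hPr, hQr, e⟩ := exists_normalise' A N hN f hf
    refine ⟨c, ⟨incl A P, hP⟩, ⟨incl A Q, hQ⟩, ⟨red A P, hPr⟩, ⟨red A Q, hQr⟩, hc,
      ⟨P, rfl, rfl, fun h0 => hP0 (congrArg Subtype.val h0)⟩,
      ⟨Q, rfl, rfl, fun h0 => hQ0 (congrArg Subtype.val h0)⟩, Subtype.ext e⟩
  · intro x' hx'
    obtain ⟨W, S, hW, hS, hWr, hSr, hS0, e⟩ := exists_lift_frac A N hN x' x'.2
    have hx'0 : (x' : LaurentSeries (IsLocalRing.ResidueField A)) ≠ 0 :=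
      fun h0 => hx' (Subtype.ext h0)
    refine ⟨⟨incl A W, hW⟩, ⟨incl A S, hS⟩, ⟨red A W, hWr⟩, ⟨red A S, hSr⟩,
      ⟨W, rfl, rfl, fun h0 => ?_⟩,
      ⟨S, rfl, rfl, fun h0 => hS0 (congrArg Subtype.val h0)⟩, Subtype.ext e⟩
    have h1 : red A W = 0 := congrArg Subtype.val h0
    rw [e] at h1
    exact mul_ne_zero hx'0 hS0 h1
  · intro x' hx'
    obtain ⟨c, hc⟩ := RED.mem_range_of_ord_nonneg (f := x') (fun P => (hx' P).ge)
    exact ⟨c, hc.symm⟩
  · intro c
    exact IsAlgClosed.exists_pow_nat_eq c (Nat.pos_of_ne_zero hm0)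
  · rintro P Q P' ⟨a, ha, ha', hP'⟩ ⟨b, hb, hb', -⟩ hdvd
    have hb0 : red A b ≠ 0 := by
      rw [← hb']
      exact fun h0 => hP' (Subtype.ext h0)
    have hQ0 : Q ≠ 0 := by
      rintro rfl
      have h0 : b = 0 := incl_injective A (by rw [← hb, map_zero]; rfl)
      exact hb0 (by rw [h0, map_zero])
    have hP0 : P ≠ 0 := by
      rintro rfl
      have h0 : a = 0 := incl_injective A (by rw [← ha, map_zero]; rfl)
      apply hb0
      rw [← hb', ha', h0, map_zero]
    obtain ⟨y, hy⟩ := KL.klAll N (NeZero.ne N) A m hN hmk a b (by rw [← ha]; exact P.2)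
      (by rw [← hb]; exact Q.2) (by rw [← ha', ← hb']) hb0 (Units.mk0 (P / Q) (div_ne_zero hP0 hQ0))
      (by
        rw [← ha, ← hb, Units.val_mk0]
        have h1 : P / Q * Q = P := div_mul_cancel₀ _ hQ0
        exact congrArg Subtype.val h1)
      (fun v => by rw [Units.val_mk0]; exact hdvd v)
    refine ⟨(y : FN N), ?_⟩
    have h1 := congrArg Units.val hy
    rwa [Units.val_pow_eq_pow_val, Units.val_mk0] at h1

theorem result (N : ℕ) [NeZero N] {ℓ : ℕ}
    [Fact ℓ.Prime] (hℓN : ¬ ℓ ∣ N) (A : ValuationSubring (AlgebraicClosure ℚ)) (hA : A.LiesOverPrime ℓ)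
    (h : ModularCurve.ReductionInputsModL A N) (m : ℕ) (hm : ¬ ℓ ∣ m) (z : ModularCurve.JZero N)
    (hmz : m • z = 0) (hz : ModularCurve.reductionModL A N z = 0) :
    z = 0 := by
  have hℓ : ℓ.Prime := Fact.out
  have hN := natCast_residue_ne_zero A hℓ hA hℓN
  have hmk := natCast_residue_ne_zero A hℓ hA hm
  obtain ⟨D, rfl⟩ := Pic0.mk_surjective z
  have hr := isPlaceReductionModL_placeReductionModL h
  rw [reductionModL_mk h] at hz
  have hmD : Divisor.IsPrincipal (m • (D : Divisor Kbar (FN N))) := by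
    have h1 : Pic0.mk (m • D) = 0 := hmz
    have h2 := (QuotientAddGroup.eq_zero_iff _).mp h1
    exact h2
  have hrD : Divisor.IsPrincipal
      (Finsupp.mapDomain (placeReductionModL h) (D : Divisor Kbar (FN N))) := by
    have h2 := (QuotientAddGroup.eq_zero_iff _).mp hz
    exact h2
  have key := isPrincipal_of N A hN m hmk (placeReductionModL h) hr D hmD hrD
  exact (QuotientAddGroup.eq_zero_iff _).mpr key

end Fermat.Agent.S18
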