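-- S12 (Mazur for the Frey curve, p >= 17: no Galois-stable cofixed line).
-- Assembly: S15.Key + S15.M1Out (blocks of S15) + START, LOC, AT-P, GLOBAL, HEIGHT (blocks of S12).
import Fermat.Statements.S12
import Fermat.Agent.S12.Main
import Fermat.Agent.S12.Start.Main
import Fermat.Agent.S15.Contracts
import Fermat.Agent.S15.M1.Num.Main
import Fermat.Agent.S15.Outer.Final
import Fermat.Agent.S15.Z5.Main
import Fermat.Agent.S15.H.HeckeGal
import Fermat.Agent.S15.H.Core

set_option autoImplicit false
open WeierstrassCurve WeierstrassCurve.Affine WeierstrassCurve.Affine.Point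
open CuspForm ModularFormClass UpperHalfPlane
open FreyPackage

namespace Fermat.Agent.S12

theorem result (P : FreyPackage) (hp : 17 ≤ P.p) : ¬ HasGaloisStableCofixedLine (K := AlgebraicClosure ℚ) ℚ P.freyCurve P.p :=
  s12_of (S15.key_of S15.Outer.keyOfFin_np (S15.finOfCore S15.H.heckeGal) S15.H.coreAll)
    S15.M1.Num.m1Out Start.startOut P hp

end Fermat.Agent.S12
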