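import Fermat.Statements.S13
import Fermat.Agent.S13.Glue
import Fermat.Agent.S13.ExportTwo
import Fermat.Agent.S13.AtP
import Fermat.Agent.S13.AtPRoots
import Fermat.Agent.S13.ExportNoRat

set_option autoImplicit false
open WeierstrassCurve WeierstrassCurve.Affine WeierstrassCurve.Affine.Point
open CuspForm ModularFormClass UpperHalfPlane
open FreyPackage

namespace Fermat.Agent.S13

theorem result (P : FreyPackage) (hred : ¬ GaloisRepIsIrreducible (K := AlgebraicClosure ℚ) ℚ P.freyCurve P.p) : HasGaloisStableCofixedLine (K := AlgebraicClosure ℚ) ℚ P.freyCurve P.p :=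
  Glue.glue P (frey_unipotent_two P) (frey_at_p P) (frey_exists_integral_torsion P)
    (frey_no_rat P) hred

end Fermat.Agent.S13
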