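-- Statement S14: `ExtVanishingCts p` for every prime `p ≥ 3`.
-- Proof: `Fermat/Agent/CFT/*` (class field theory in S-unit form, Stickelberger for Jacobi sums,
-- cyclotomic reciprocity), see `CFT/TheoremC.lean` and `CFT/Translation.lean`.
import Fermat.Statements.S14
import Fermat.Agent.CFT.Translation
import Fermat.Agent.CFT.TheoremC

set_option autoImplicit false
open ExtCitation

namespace Fermat.Agent.S14

theorem result {p : ℕ} [Fact p.Prime] (h3 : 3 ≤ p) :
    ExtCitation.ExtVanishingCts p :=
  Fermat.Agent.CFT.Translation.extVanishingCts_of_theoremC h3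
    (fun _ _ _ _ ζ hζ χ hχ b hb hfaith hunr hsplit =>
      Fermat.Agent.CFT.theoremC p (by omega) ζ hζ χ hχ b hb hfaith hunr hsplit)

end Fermat.Agent.S14
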