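import Fermat.Statements.S16
import Fermat.Agent.S16.Part0
import Fermat.Agent.S16.Upper
import Fermat.Agent.S16.EisE
import Fermat.Agent.S16.Lower.Assembly

set_option autoImplicit false
open ModularCurve CuspForm
open ModularCurve

namespace Fermat.Agent.S16

open CongruenceSubgroup UpperHalfPlane in
/-- the upper bound, all primes. -/
theorem upper_all (p : ℕ) [hp : Fact p.Prime] (M : ℕ) (f : CuspForm (Gamma0 p) 2)
    (hf : EisCong p M f) : M ∣ eisensteinNumerator p := by
  rcases lt_or_ge p 5 with h5 | h5
  · exact upper_of_lt_five hp.out h5 M f hf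
  · refine upper_of_five_le hp.out h5 ⟨EisE p, ?_, ?_⟩ M f hf
    · have := qCoeff_EisE p 0
      simpa [ModularFormClass.qCoeff] using this
    · intro k hk
      have := qCoeff_EisE p k
      rw [if_neg (by omega)] at this
      simpa [ModularFormClass.qCoeff] using this

theorem result
    (p : ℕ) [Fact p.Prime] :
    Nat.card (↥(heckeLatticeAlgebra p ∅) ⧸
        Ideal.map ((latticeRestrictHom p ∅).toRingHom.comp (heckeEvalForms p 2))
          (eisensteinIdeal p)) =
      eisensteinNumerator p :=
  Part0.card_statement_of_upper_of_lower p (upper_all p) (Lower.dvd_of_intCast_mem p)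

end Fermat.Agent.S16
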