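import Fermat.Statements.S20
import Fermat.Agent.ES.Main
import Fermat.Agent.ES.Counting

set_option autoImplicit false

namespace Fermat.Agent.S20

theorem result (N : ℕ) [NeZero N] :
    (Module.finrank ℂ (CuspForm (CongruenceSubgroup.Gamma0 N) 2) : ℚ) = ModularCurve.genusFormula N := by
  have h := Fermat.Agent.ES.two_mul_finrank_cuspForm N
  have h1 := Fermat.Agent.ES.index_Gamma0 N
  have h2 := Fermat.Agent.ES.two_mul_d0_S N
  have h3 := Fermat.Agent.ES.three_mul_d0_ST N
  have h4 := Fermat.Agent.ES.d0_T N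
  unfold ModularCurve.genusFormula
  have h' : (2 * (Module.finrank ℂ (CuspForm (CongruenceSubgroup.Gamma0 N) 2) : ℚ)
      + Fermat.Agent.ES.d0 (CongruenceSubgroup.Gamma0 N) ModularGroup.S
      + Fermat.Agent.ES.d0 (CongruenceSubgroup.Gamma0 N) (ModularGroup.S * ModularGroup.T)
      + Fermat.Agent.ES.d0 (CongruenceSubgroup.Gamma0 N) ModularGroup.T)
      = (CongruenceSubgroup.Gamma0 N).index + 2 := by exact_mod_cast h
  have h2' : (2 * (Fermat.Agent.ES.d0 (CongruenceSubgroup.Gamma0 N) ModularGroup.S : ℚ))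
      = ModularCurve.dedekindPsi N + ModularCurve.nuTwo N := by exact_mod_cast h2
  have h3' : (3 * (Fermat.Agent.ES.d0 (CongruenceSubgroup.Gamma0 N)
      (ModularGroup.S * ModularGroup.T) : ℚ))
      = ModularCurve.dedekindPsi N + 2 * ModularCurve.nuThree N := by exact_mod_cast h3
  rw [h1, h4] at h'
  linarith

end Fermat.Agent.S20
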