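-- Statement S27: `#Pic⁰(F)[ℓ^k] = ℓ^(2gk)` for a function field of one variable over an
-- algebraically closed field of characteristic zero.
import Fermat.Statements.S27
import Fermat.Agent.S27.Assembly
import Fermat.Agent.S27.RR.Main
import Fermat.Agent.S27.K.K1
import Fermat.Agent.S27.K.Main
import Fermat.Agent.S27.API.Main
import Fermat.Agent.S27.E.Main
import Fermat.Agent.S27.FO.Main
import Fermat.Agent.S27.M4.Main
import Fermat.Agent.S27.Frob.Main
import Fermat.Agent.S27.AZ.Main

set_option autoImplicit false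
set_option autoImplicit false
open AlgebraicCurve
open AlgebraicCurve AlgebraicCurve.Pic0

namespace Fermat.Agent.S27

theorem result
    (K F : Type*) [Field K] [Field F] [Algebra K F] [IsAlgClosed K] [CharZero K]
    [IsCurveOver K F] [Algebra.EssFiniteType K F]
    (ℓ : ℕ) [Fact ℓ.Prime] (k : ℕ) :
    Nat.card (Pic0.torsion K F (ℓ ^ k)) = ℓ ^ (2 * genusFF K F * k) := by
  exact main Fermat.Agent.S27.K.stmtK1 (Fermat.Agent.S27.K.stmtK2 RR.stmtRR) (API.stmtGenus RR.stmtRR)
    (E.stmtK3_of_API (API.stmtAPI RR.stmtRR)) (E.stmtE_of_API (API.stmtAPI RR.stmtRR))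
    FO.stmtFO (API.stmtGenus RR.stmtRR) (E.stmtE_of_API (API.stmtAPI RR.stmtRR))
    M4.stmtM4 (Frob.stmtFrob RR.stmtRR) AZ.azMain K F ℓ k

end Fermat.Agent.S27
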