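import Fermat.Statements.S49
import Fermat.Agent.S49.Eigen
import Fermat.Agent.S49.Formal
import Fermat.Agent.S49.Lattice
import Fermat.Agent.S49.Cong

set_option autoImplicit false
open CuspForm EisensteinWeightOne CongruenceSubgroup ModularFormClass
open FLT FLT.AbstractIntegralStructure

namespace Fermat.Agent.S49

/-- A simultaneous eigenvector of the full Hecke algebra can be normalised. -/
theorem exists_normalized_of_eigenvector {N : ℕ} [NeZero N] (v : CuspForm (Gamma0 N) 2)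
    (hv : v ≠ 0) (χ : heckeAlgebra N 2 ∅ →+* ℂ) (hev : ∀ t : heckeAlgebra N 2 ∅, t.1 v = χ t • v) :
    ∃ g : CuspForm (Gamma0 N) 2, g.IsNormalizedEigenform ∧
      ∀ (ℓ : ℕ) (hℓ : ℓ.Prime) (hℓN : ¬ ℓ ∣ N),
        qCoeff g ℓ = χ (heckeAlgebra.T hℓ hℓN (Set.notMem_empty ℓ)) := by
  classical
  let e : ℕ → ℂ := fun ℓ => if ℓ ∣ N then 0 else (ℓ : ℂ)
  have hrel : ∀ (w : CuspForm (Gamma0 N) 2) (_ : ∀ t : heckeAlgebra N 2 ∅, t.1 w = χ t • w)
      (ℓ : ℕ) (hℓ : ℓ.Prime), ∃ c : ℂ,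
      (∀ hℓN : ¬ ℓ ∣ N, c = χ (heckeAlgebra.T hℓ hℓN (Set.notMem_empty ℓ))) ∧ ∀ n : ℕ,
      qCoeff w (ℓ * n) + e ℓ * (if ℓ ∣ n then qCoeff w (n / ℓ) else 0) = c * qCoeff w n := by
    intro w hw ℓ hℓ
    by_cases hℓN : ℓ ∣ N
    · refine ⟨χ (heckeAlgebra.U hℓ hℓN (Set.notMem_empty ℓ)), fun h => absurd hℓN h, fun n => ?_⟩
      have h1 := hw (heckeAlgebra.U hℓ hℓN (Set.notMem_empty ℓ))
      rw [heckeAlgebra.coe_U] at h1
      have h2 := qc_U hℓ hℓN w n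
      rw [h1, qc_smul] at h2
      simp only [e, if_pos hℓN, zero_mul, add_zero]
      exact h2.symm
    · refine ⟨χ (heckeAlgebra.T hℓ hℓN (Set.notMem_empty ℓ)), fun _ => rfl, fun n => ?_⟩
      have h1 := hw (heckeAlgebra.T hℓ hℓN (Set.notMem_empty ℓ))
      rw [heckeAlgebra.coe_T] at h1
      have h2 := qc_T hℓ hℓN w n
      rw [h1, qc_smul] at h2
      simp only [e, if_neg hℓN]
      exact h2.symm
  have hb1 : qCoeff v 1 ≠ 0 := by
    intro h1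
    apply hv
    apply qc_ext
    intro n
    rcases Nat.eq_zero_or_pos n with rfl | hn
    · exact qc_zero v
    · exact eig_vanish (e := e) (fun ℓ hℓ => by
        obtain ⟨c, -, hc⟩ := hrel v hev ℓ hℓ
        exact ⟨c, hc⟩) h1 n hn
  let g : CuspForm (Gamma0 N) 2 := (qCoeff v 1)⁻¹ • v
  have hg : ∀ t : heckeAlgebra N 2 ∅, t.1 g = χ t • g := by
    intro t
    simp only [g]
    rw [map_smul, hev, smul_comm]
  have hg1 : qCoeff g 1 = 1 := by
    simp only [g]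
    rw [qc_smul, inv_mul_cancel₀ hb1]
  have hgℓ : ∀ (ℓ : ℕ) (hℓ : ℓ.Prime), ∀ c : ℂ, (∀ n : ℕ,
      qCoeff g (ℓ * n) + e ℓ * (if ℓ ∣ n then qCoeff g (n / ℓ) else 0) = c * qCoeff g n) →
      c = qCoeff g ℓ := by
    intro ℓ hℓ c hc
    have h1 := hc 1
    have h2 : ¬ ℓ ∣ 1 := fun h => hℓ.one_lt.ne' (Nat.dvd_one.mp h)
    rw [if_neg h2, mul_zero, add_zero, mul_one, hg1, mul_one] at h1
    exact h1.symm
  have heig : FormalHecke.IsEigensystem e (fun n => qCoeff g n) := by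
    refine ⟨hg1, fun ℓ hℓ n => ?_⟩
    obtain ⟨c, -, hc⟩ := hrel g hg ℓ hℓ
    have := hgℓ ℓ hℓ c hc
    show qCoeff g (ℓ * n) + e ℓ * (if ℓ ∣ n then qCoeff g (n / ℓ) else 0)
      = qCoeff g ℓ * qCoeff g n
    rw [← this]
    exact hc n
  refine ⟨g, ⟨hg1, eig_mul_of_coprime heig, ?_, ?_⟩, ?_⟩
  · intro p r hp hpN
    have := eig_prime_pow heig hp r
    simpa only [e, if_neg hpN] using this
  · intro p r hp hpN
    have := eig_prime_pow heig hp r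
    simpa only [e, if_pos hpN, zero_mul, sub_zero] using this
  · intro ℓ hℓ hℓN
    obtain ⟨c, hc1, hc⟩ := hrel g hg ℓ hℓ
    rw [← hc1 hℓN]
    exact (hgℓ ℓ hℓ c hc).symm

theorem result
    {N : ℕ} [NeZero N] (h : CuspForm.HasIntegralBasis N) {a : ℕ → ℤ}
    (heig : FormalHecke.IsEigensystem
      (fun ℓ => if ℓ ∣ N then 0 else ((chiNegThree ℓ : ℤ) : ℤ)) a)
    (hreal : CuspForm.IsLatticeRealized N a) :
    ∃ (f : CuspForm (Gamma0 N) 2) (_ : f.IsNormalizedEigenform)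
      (𝔪' : Ideal (integralClosure ℤ ℂ)), 𝔪'.IsMaximal ∧
      ((3 : ℕ) : integralClosure ℤ ℂ) ∈ 𝔪' ∧
      ∀ (ℓ : ℕ) (_ : ℓ.Prime) (_ : ¬ ℓ ∣ N),
        ∃ c : integralClosure ℤ ℂ, (c : ℂ) = ModularFormClass.qCoeff f ℓ ∧
          c - (a ℓ : integralClosure ℤ ℂ) ∈ 𝔪' := by
  classical
  obtain ⟨f, hf, af, haf, hbr⟩ := hreal
  have hcong : ∀ n, (3 : ℤ) ∣ af n - a n := fun n => by
    have := dvd_add (hbr n) (bridge_coeff a n)
    simpa using this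
  have hfL : f ∈ CuspForm.intLattice N 2 := qIntegralSet_subset hf
  have haf1 : ¬ (3 : ℤ) ∣ af 1 := by
    intro h3
    have h1 := hcong 1
    rw [heig.1] at h1
    omega
  have hint : Algebra.IsIntegral ℤ (heckeAlgebra N 2 ∅) := heckeAlgebra_isIntegral h
  have hfd : FiniteDimensional ℂ (CuspForm (Gamma0 N) 2) := finiteDimensional_of_hasIntegralBasis h
  obtain ⟨𝔐, h𝔐, hle⟩ := Ideal.exists_le_maximal _ (congIdeal_ne_top f haf haf1)
  have h𝔐p : 𝔐.IsPrime := h𝔐.isPrime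
  obtain ⟨v, χ, hv0, hev, hker⟩ := exists_eigenvector_of_prime
    ((heckeAlgebra N 2 ∅).val : heckeAlgebra N 2 ∅ →+* Module.End ℂ (CuspForm (Gamma0 N) 2))
    Subtype.val_injective 𝔐
  obtain ⟨g, hg, hgχ⟩ := exists_normalized_of_eigenvector v hv0 χ hev
  let χ' : heckeAlgebra N 2 ∅ →+* integralClosure ℤ ℂ :=
    χ.codRestrict (integralClosure ℤ ℂ) (fun t => map_isIntegral_int χ (hint.isIntegral t))
  have hχ' : ∀ t, ((χ' t : integralClosure ℤ ℂ) : ℂ) = χ t := fun _ => rfl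
  let _ : Algebra (heckeAlgebra N 2 ∅) (integralClosure ℤ ℂ) := χ'.toAlgebra
  have hint' : Algebra.IsIntegral (heckeAlgebra N 2 ∅) (integralClosure ℤ ℂ) :=
    ⟨fun x => (Algebra.IsIntegral.isIntegral (R := ℤ) x).tower_top⟩
  have hker' : RingHom.ker (algebraMap (heckeAlgebra N 2 ∅) (integralClosure ℤ ℂ)) ≤ 𝔐 := by
    intro t ht
    apply hker
    rw [RingHom.mem_ker] at ht ⊢
    have : χ' t = 0 := ht
    rw [← hχ', this]
    rfl
  obtain ⟨𝔪', h𝔪', hcomap⟩ := Ideal.exists_ideal_over_maximal_of_isIntegral 𝔐 hker'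
  have hmem : ∀ t ∈ congIdeal f, χ' t ∈ 𝔪' := by
    intro t ht
    have : t ∈ Ideal.comap (algebraMap (heckeAlgebra N 2 ∅) (integralClosure ℤ ℂ)) 𝔪' := by
      rw [hcomap]; exact hle ht
    exact this
  refine ⟨g, hg, 𝔪', h𝔪', ?_, ?_⟩
  · have := hmem _ (three_mem_congIdeal f hfL)
    rwa [map_natCast] at this
  · intro ℓ hℓ hℓN
    refine ⟨χ' (heckeAlgebra.T hℓ hℓN (Set.notMem_empty ℓ)), ?_, ?_⟩
    · rw [hχ', hgχ ℓ hℓ hℓN]
    · have := hmem _ (T_sub_mem_congIdeal f haf hcong heig hℓ hℓN)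
      rwa [map_sub, map_intCast] at this

end Fermat.Agent.S49
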