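import Fermat.Statements.S51
import Fermat.Agent.S51.Moduli
import Fermat.Agent.S51.Galois

set_option autoImplicit false
open WeierstrassCurve WeierstrassCurve.Affine WeierstrassCurve.Affine.Point
open CuspForm ModularFormClass UpperHalfPlane
open WeierstrassCurve

namespace Fermat.Agent.S51

theorem five_dvd_of_rel (c Δ N M : ℤ) (h : N * c ^ 3 = M * Δ) (hN : ¬ (5 : ℤ) ∣ N)
    (hM : (5 : ℤ) ∣ M) (hM' : ¬ (125 : ℤ) ∣ M) : (5 : ℤ) ∣ c ∧ (5 : ℤ) ∣ Δ := by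
  have p5 : Prime (5 : ℤ) := by norm_num
  have hc : (5 : ℤ) ∣ c := by
    have h1 : (5 : ℤ) ∣ N * c ^ 3 := by rw [h]; exact Dvd.dvd.mul_right hM Δ
    rcases p5.dvd_or_dvd h1 with h2 | h2
    · exact absurd h2 hN
    · exact p5.dvd_of_dvd_pow h2
  refine ⟨hc, ?_⟩
  by_contra hΔ
  obtain ⟨k, rfl⟩ := hc
  have h125 : (125 : ℤ) ∣ Δ * M := ⟨N * k ^ 3, by linear_combination -h⟩
  have hcop : IsCoprime (125 : ℤ) Δ := by
    have : IsCoprime (5 : ℤ) Δ := (p5.coprime_iff_not_dvd).mpr hΔ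
    have h3 : IsCoprime ((5 : ℤ) ^ 3) Δ := this.pow_left
    norm_num at h3
    exact h3
  exact hM' (hcop.dvd_of_dvd_mul_left h125)

theorem result (W : WeierstrassCurve ℤ) (hΔ : W.Δ ≠ 0) (hW : W.IsSemistableModel) : W.ModRepIsIrreducible 3 ∨ W.ModRepIsIrreducible 5 := by
  by_contra hcon
  rw [not_or] at hcon
  obtain ⟨h3, h5⟩ := hcon
  obtain ⟨r, hr⟩ := red3 W hΔ h3
  obtain ⟨s, m, hne, hA, hS, hrm⟩ := red5 W hΔ h5
  have hb : 4 * (W.b₈ : ℚ) = (W.b₂ : ℚ) * (W.b₆ : ℚ) - (W.b₄ : ℚ) ^ 2 := by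
    exact_mod_cast W.b_relation
  have hc4 : ((W.c₄ : ℤ) : ℚ) = (W.b₂ : ℚ) ^ 2 - 24 * (W.b₄ : ℚ) := by
    rw [WeierstrassCurve.c₄]; push_cast; ring
  have hD : ((W.Δ : ℤ) : ℚ) = -(W.b₂ : ℚ) ^ 2 * (W.b₈ : ℚ) - 8 * (W.b₄ : ℚ) ^ 3
      - 27 * (W.b₆ : ℚ) ^ 2 + 9 * (W.b₂ : ℚ) * (W.b₄ : ℚ) * (W.b₆ : ℚ) := by
    rw [WeierstrassCurve.Δ]; push_cast; ring
  have key := moduli (W.b₂ : ℚ) (W.b₄ : ℚ) (W.b₆ : ℚ) (W.b₈ : ℚ) r s m hb hr hA hS hne (hrm r hr)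
  rw [← hc4, ← hD] at key
  have fin : ∀ N M : ℤ, N * W.c₄ ^ 3 = M * W.Δ → ¬ (5 : ℤ) ∣ N → (5 : ℤ) ∣ M →
      ¬ (125 : ℤ) ∣ M → False := by
    intro N M h hN hM hM'
    obtain ⟨h1, h2⟩ := five_dvd_of_rel _ _ N M h hN hM hM'
    exact hW 5 (by norm_num) (by exact_mod_cast h2) (by exact_mod_cast h1)
  rcases key with h | h | h | h | h
  · exact hΔ (by exact_mod_cast h)
  · exact fin 2 (-25) (by exact_mod_cast h) (by norm_num) (by norm_num) (by norm_num)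
  · exact fin 8 (-349938025) (by exact_mod_cast h) (by norm_num) (by norm_num) (by norm_num)
  · exact fin 32 (-121945) (by exact_mod_cast h) (by norm_num) (by norm_num) (by norm_num)
  · exact fin 32768 46969655 (by exact_mod_cast h) (by norm_num) (by norm_num) (by norm_num)

end Fermat.Agent.S51
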