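import Fermat.Statements.S52
import Fermat.Agent.S52.Model

set_option autoImplicit false
open WeierstrassCurve WeierstrassCurve.Affine WeierstrassCurve.Affine.Point
open CuspForm ModularFormClass UpperHalfPlane
open WeierstrassCurve

namespace Fermat.Agent.S52

theorem result (W : WeierstrassCurve ℤ) (hΔ : W.Δ ≠ 0) (hW : W.IsSemistableModel) (h5 : W.ModRepIsIrreducible 5) : ∃ W' : WeierstrassCurve ℤ, W'.Δ ≠ 0 ∧ W'.IsSemistableModel ∧ W'.ModRepIsIrreducible 3 ∧ ∀ ℓ : ℕ, ℓ.Prime → W.IsGoodPrimeFor ℓ → W'.IsGoodPrimeFor ℓ → ℓ ≠ 5 → (5 : ℤ) ∣ (W'.apOfModel ℓ - W.apOfModel ℓ) := by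
  by_cases h3 : W.ModRepIsIrreducible 3
  · exact ⟨W, hΔ, hW, h3, fun ℓ _ _ _ _ => by simp⟩
  have h3c4 : ¬ (3 : ℤ) ∣ W.c₄ := three_not_dvd_c4 W hΔ hW h3
  have hrel : W.c₄ ^ 3 - W.c₆ ^ 2 = 1728 * W.Δ := W.c_relation.symm
  set M₀ : ℤ := 30 * W.Δ * W.c₄ * W.c₆ with hM₀
  -- the auxiliary prime and the parameter
  obtain ⟨q, hq, hq12, t, hmt, hq6, hq4⟩ := exists_aux W.c₄ W.c₆ W.Δ hrel hΔ h3c4 hW (1728 * M₀) (by
    intro p hp hdvd
    rcases (Nat.prime_iff_prime_int.mp hp).dvd_or_dvd hdvd with h | h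
    · have h' : (p : ℤ) ∣ 30 ^ 6 := h.trans ⟨421875, by norm_num⟩
      have h30 : (p : ℤ) ∣ 30 := (Nat.prime_iff_prime_int.mp hp).dvd_of_dvd_pow h'
      exact Dvd.dvd.mul_right (Dvd.dvd.mul_right (Dvd.dvd.mul_right h30 _) _) _
    · exact h)
  obtain ⟨m, rfl⟩ : ∃ m, t = 1728 * m := (Dvd.dvd.trans ⟨M₀, rfl⟩ hmt)
  have hMm : M₀ ∣ m := by
    exact (mul_dvd_mul_iff_left (by norm_num : (1728 : ℤ) ≠ 0)).mp hmt
  have hc4' := mkW_c₄ W m
  have hc6' := mkW_c₆ W m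
  have hΔ' : (mkW W m).Δ ≠ 0 := by
    intro h0
    -- `2 Δ ∣ Δ' - Δ`
    have h2 : ((2 * W.Δ).natAbs : ℤ) ∣ m := by
      rw [Int.natAbs_dvd]
      exact Dvd.dvd.trans ⟨15 * W.c₄ * W.c₆, by rw [hM₀]; ring⟩ hMm
    have := model_dvd_iff_Δ W m _ h2
    rw [Int.natAbs_dvd, h0, zero_sub, dvd_neg] at this
    obtain ⟨k, hk⟩ := this
    have : W.Δ * (1 - 2 * k) = 0 := by linear_combination hk
    rcases mul_eq_zero.mp this with h | h
    · exact hΔ h
    · omega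
  refine ⟨mkW W m, hΔ', ?_, ?_, ?_⟩
  · -- semistability
    intro p hp hpΔ hpc4
    haveI : Fact p.Prime := ⟨hp⟩
    by_cases hpM : (p : ℤ) ∣ M₀
    · have hpm : (p : ℤ) ∣ m := hpM.trans hMm
      have h1 := model_dvd_iff_Δ W m p hpm
      have h2 := model_dvd_iff_c₄ W m p hpm
      exact hW p hp ((dvd_sub_right hpΔ).mp h1) ((dvd_sub_right hpc4).mp h2)
    · obtain ⟨h30, h4, h6, hD, -⟩ := model_facts W p hpM
      have hpc6 : (p : ℤ) ∣ (mkW W m).c₆ := by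
        have hr := (mkW W m).c_relation
        have : (p : ℤ) ∣ (mkW W m).c₆ ^ 2 := by
          have e : (mkW W m).c₆ ^ 2 = (mkW W m).c₄ ^ 3 - 1728 * (mkW W m).Δ := by
            linear_combination hr
          rw [e]
          exact dvd_sub (dvd_pow hpc4 (by norm_num)) (Dvd.dvd.mul_left hpΔ _)
        exact (Nat.prime_iff_prime_int.mp hp).dvd_of_dvd_pow this
      apply no_common_zero h30 (W.c₄ : ZMod p) (W.c₆ : ZMod p) ((1728 * m : ℤ) : ZMod p) h4 h6 hD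
      constructor
      · have := (ZMod.intCast_zmod_eq_zero_iff_dvd _ p).mpr hpc4
        rw [hc4'] at this
        rw [← this]
        exact (map_C4 (Int.castRingHom (ZMod p)) _ _ _).symm
      · have := (ZMod.intCast_zmod_eq_zero_iff_dvd _ p).mpr hpc6
        rw [hc6'] at this
        rw [← this]
        exact (map_C6 (Int.castRingHom (ZMod p)) _ _ _).symm
  · -- irreducibility of the mod 3 representation
    exact irr3_of_aux (mkW W m) hΔ' q hq hq12 (hc6' ▸ hq6) (hc4' ▸ hq4)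
  · -- the congruence
    intro ℓ hℓ hg hg' hℓ5
    haveI : Fact ℓ.Prime := ⟨hℓ⟩
    by_cases hℓM : (ℓ : ℤ) ∣ M₀
    · have hℓm : (ℓ : ℤ) ∣ m := hℓM.trans hMm
      have : (mkW W m).apOfModel ℓ = W.apOfModel ℓ := by
        unfold WeierstrassCurve.apOfModel WeierstrassCurve.reductionMod
        rw [mkW_map_eq W m ℓ hℓm]
      rw [this, sub_self]
      exact dvd_zero _
    · obtain ⟨h30, h4, h6, hD, h7⟩ := model_facts W ℓ hℓM
      rw [apOfModel_eq W ℓ (by omega) hg, apOfModel_eq (mkW W m) ℓ (by omega) hg']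
      have e4 : (((mkW W m).c₄ : ℤ) : ZMod ℓ)
          = C4 ((1728 * m : ℤ) : ZMod ℓ) (W.c₄ : ZMod ℓ) (W.c₆ : ZMod ℓ) := by
        rw [hc4']
        exact map_C4 (Int.castRingHom (ZMod ℓ)) _ _ _
      have e6 : (((mkW W m).c₆ : ℤ) : ZMod ℓ)
          = C6 ((1728 * m : ℤ) : ZMod ℓ) (W.c₄ : ZMod ℓ) (W.c₆ : ZMod ℓ) := by
        rw [hc6']
        exact map_C6 (Int.castRingHom (ZMod ℓ)) _ _ _
      have hD' : C4 ((1728 * m : ℤ) : ZMod ℓ) (W.c₄ : ZMod ℓ) (W.c₆ : ZMod ℓ) ^ 3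
          - C6 ((1728 * m : ℤ) : ZMod ℓ) (W.c₄ : ZMod ℓ) (W.c₆ : ZMod ℓ) ^ 2 ≠ 0 := by
        rw [← e4, ← e6]
        have hr := congrArg (Int.cast : ℤ → ZMod ℓ) (mkW W m).c_relation
        push_cast at hr
        rw [← hr]
        have h1728 : (1728 : ZMod ℓ) ≠ 0 := by
          intro h
          apply h30
          have h' : (30 : ZMod ℓ) ^ 6 = 1728 * 421875 := by norm_num
          rw [h, zero_mul] at h'
          exact pow_eq_zero_iff (by norm_num) |>.mp h'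
        refine mul_ne_zero h1728 ?_
        intro h
        exact hg' ((ZMod.intCast_zmod_eq_zero_iff_dvd _ ℓ).mp h)
      have key := cong_mod_five ℓ h7 (W.c₄ : ZMod ℓ) (W.c₆ : ZMod ℓ) ((1728 * m : ℤ) : ZMod ℓ)
        h4 h6 hD hD'
      rw [e4, e6]
      obtain ⟨k, hk⟩ := key
      exact ⟨-k, by linear_combination -hk⟩

end Fermat.Agent.S52
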