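import Fermat.Statements.S53
import Fermat.Agent.S53.Assembly
import Fermat.Agent.S53.Representability

set_option autoImplicit false
set_option autoImplicit false
open GaloisRep

namespace Fermat.Agent.S53

theorem result
    (𝒪 : Type) [CommRing 𝒪] [IsDomain 𝒪] [IsDiscreteValuationRing 𝒪]
    [IsAdicComplete (IsLocalRing.maximalIdeal 𝒪) 𝒪] [Finite (IsLocalRing.ResidueField 𝒪)]
    (ρbar : ResidualGaloisRep (IsLocalRing.ResidueField 𝒪))
    (𝒟 : ∀ ⦃A : Type⦄ [CommRing A] [IsLocalRing A] [Algebra 𝒪 A], GaloisRepAdic A → Prop)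
    (habs : ρbar.IsAbsolutelyIrreducible)
    (h𝒟 : GaloisRep.IsDeformationCondition 𝒪 𝒟)
    (hbar : 𝒟 (GaloisRepAdic.ofResidualGaloisRep ρbar))
    (hfin : GaloisRep.TangentFinite 𝒪 ρbar 𝒟) :
    Nonempty (GaloisRep.DeformationRingData 𝒪 ρbar 𝒟) := by
  obtain ⟨dat, hmat⟩ := exists_rigidData 𝒪 ρbar habs
  have hrep := isRepFunctor_PFun (dat := dat) h𝒟 ρbar hmat hbar hfin
  obtain ⟨R, i1, i2, i3, i4, i5, i6, hres, fR, hfR, huniv⟩ :=
    isRepresentable_of_isRepFunctor 𝒪 hrep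
  obtain ⟨hNF, hlift, ρ, hρ, h𝒟ρ⟩ := hfR
  refine ⟨{ R := R, residue_surjective := hres, absIrr := habs, ρ := ρ, isOfType := h𝒟ρ,
            residual_isEquiv := ?_, universal := ?_ }⟩
  · have h1 := hρ.residual
    have h2 := hmat.baseChangeAlong (IsLocalRing.ResidueField.map (algebraMap 𝒪 R))
    have h3 : (fun σ => (mat fR σ).map (IsLocalRing.residue R)) = fun σ =>
        (mat (fun x => IsLocalRing.residue 𝒪 (dat.f0 x)) σ).map
          (IsLocalRing.ResidueField.map (algebraMap 𝒪 R)) :=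
      funext ((Asm.isLift_iff dat fR).mp hlift)
    rw [h3] at h1
    exact h1.isEquiv h2
  · intro A _ _ _ _ _ _ hresA ρA h𝒟A hequiv
    obtain ⟨fA, hNFA, hliftA, hρA⟩ := Asm.exists_PFun_of_deformation dat ρbar hmat ρA hequiv
    obtain ⟨φ, hφ, huniq⟩ := huniv A hresA fA ⟨hNFA, hliftA, ρA, hρA, h𝒟A⟩
    refine ⟨φ, ⟨Asm.isLocalHom_of_residue_surjective hresA φ, ?_⟩, ?_⟩
    · have h1 := hρ.baseChangeAlong (φ : R →+* A) (Asm.isLocalHom_of_residue_surjective hresA φ)
      have h2 : (fun σ => (mat fR σ).map (φ : R →+* A)) = mat fA := by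
        funext σ
        ext i j
        exact hφ (σ, i, j)
      rw [h2] at h1
      exact h1.isEquiv hρA
    · rintro φ' ⟨hφ', he⟩
      apply huniq
      have h1 := (hρ.baseChangeAlong (φ' : R →+* A) hφ').of_isEquiv he
      obtain ⟨M, hM, hc⟩ := h1.exists_conj hρA
      have hl' : dat.IsLift (φ' ∘ fR) := Asm.IsLift.comp dat hlift φ' hφ'
      have hn' : IsNF dat.c dat.g₀ (mat (φ' ∘ fR)) := by
        rw [Asm.mat_comp]
        exact hNF.map φ'
      have h2 : mat (φ' ∘ fR) = mat fA :=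
        hn'.eq_of_conj hNFA (Asm.IsLift.isUnit_sub dat hl' hliftA) M
          ((Matrix.isUnit_iff_isUnit_det M).mp hM) hc
      intro x
      obtain ⟨σ, i, j⟩ := x
      exact congrFun (congrFun (congrFun h2 σ) i) j

end Fermat.Agent.S53
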