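import Fermat.Statements.S57
import Fermat.Agent.S57.ProjDim
import Fermat.Agent.S57.PowerSeriesSeq
import Fermat.Agent.S57.Descent

set_option autoImplicit false
open Algebra Algebra.PatchingLevel

namespace Fermat.Agent.S57

open MvPowerSeries RingTheory.Sequence IsLocalRing

section

variable {𝒪 : Type} [CommRing 𝒪]
    {r : ℕ} {R : Type} [CommRing R] [Algebra 𝒪 R]
    {M : Type} [AddCommGroup M] [Module R M]
    (L : Algebra.PatchingLevel 𝒪 r R M ⊥)

noncomputable def coordHom : (Fin L.d → MvPowerSeries (Fin r) 𝒪) →+ L.N where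
  toFun := fun c => ∑ i, L.φ (c i) • L.b i
  map_zero' := by simp
  map_add' := fun c c' => by simp [add_smul, Finset.sum_add_distrib]

theorem coordHom_apply (c : Fin L.d → MvPowerSeries (Fin r) 𝒪) :
    coordHom L c = ∑ i, L.φ (c i) • L.b i := rfl

theorem coordHom_bijective : Function.Bijective (coordHom L) := by
  constructor
  · refine (injective_iff_map_eq_zero _).mpr fun c hc => funext fun i => ?_
    simpa using (L.b_rel c).mp hc i
  · intro x
    obtain ⟨c, hc⟩ := L.b_span x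
    exact ⟨c, hc.symm⟩

noncomputable def coordEquiv : (Fin L.d → MvPowerSeries (Fin r) 𝒪) ≃+ L.N :=
  AddEquiv.ofBijective (coordHom L) (coordHom_bijective L)

theorem coordEquiv_smul (a : MvPowerSeries (Fin r) 𝒪) (c : Fin L.d → MvPowerSeries (Fin r) 𝒪) :
    coordEquiv L (a • c) = L.φ a • coordEquiv L c := by
  change coordHom L (a • c) = L.φ a • coordHom L c
  simp [coordHom_apply, Finset.smul_sum, mul_smul]

theorem isWeaklyRegular_N (ts : List (MvPowerSeries (Fin r) 𝒪))
    (h : IsWeaklyRegular (MvPowerSeries (Fin r) 𝒪) ts) :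
    IsWeaklyRegular L.N (ts.map L.φ) := by
  have h1 : IsWeaklyRegular (Fin L.d → MvPowerSeries (Fin r) 𝒪) ts :=
    ((TensorProduct.rid (MvPowerSeries (Fin r) 𝒪)
      (Fin L.d → MvPowerSeries (Fin r) 𝒪)).isWeaklyRegular_congr ts).mp
      (h.isWeaklyRegular_lTensor (M₂ := Fin L.d → MvPowerSeries (Fin r) 𝒪))
  refine ((coordEquiv L).isWeaklyRegular_congr (List.forall₂_map_right_iff.mpr
    (List.forall₂_same.mpr fun a _ c => ?_))).mp h1
  exact coordEquiv_smul L a c

theorem finite_N : Module.Finite (MvPowerSeries (Fin r) 𝒪) L.N := by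
  classical
  refine ⟨⟨Finset.univ.image L.b, ?_⟩⟩
  rw [_root_.eq_top_iff]
  intro x _
  obtain ⟨c, rfl⟩ := L.b_span x
  exact Submodule.sum_mem _ fun i _ => Submodule.smul_mem _ _ (Submodule.subset_span (by simp))

theorem phi_C (a : 𝒪) : L.φ (C a) = C a := by
  have := L.φ.commutes a
  simpa [MvPowerSeries.algebraMap_apply] using this

variable [IsDomain 𝒪] [IsDiscreteValuationRing 𝒪]

theorem mem_maximalIdeal_iff (f : MvPowerSeries (Fin r) 𝒪) :
    f ∈ maximalIdeal (MvPowerSeries (Fin r) 𝒪) ↔ constantCoeff f ∈ maximalIdeal 𝒪 := by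
  rw [IsLocalRing.mem_maximalIdeal, mem_nonunits_iff, isUnit_iff_constantCoeff,
    ← mem_nonunits_iff, ← IsLocalRing.mem_maximalIdeal]

theorem phi_mem_ofList (ϖ : 𝒪) (hϖ : Irreducible ϖ) (f : MvPowerSeries (Fin r) 𝒪)
    (hf : f ∈ maximalIdeal (MvPowerSeries (Fin r) 𝒪)) :
    L.φ f ∈ Ideal.ofList
      ((List.ofFn (X : Fin r → MvPowerSeries (Fin r) 𝒪) ++ [C ϖ]).map L.φ) := by
  rw [← ofList_X_C_eq_maximalIdeal ϖ hϖ r] at hf
  have := Ideal.mem_map_of_mem (L.φ : MvPowerSeries (Fin r) 𝒪 →+* MvPowerSeries (Fin r) 𝒪) hf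
  rw [Ideal.map_ofList] at this
  exact this

theorem isFiniteLength_quot (ϖ : 𝒪) (hϖ : Irreducible ϖ) :
    IsFiniteLength (MvPowerSeries (Fin r) 𝒪)
      (L.N ⧸ Ideal.ofList ((List.ofFn (X : Fin r → MvPowerSeries (Fin r) 𝒪) ++ [C ϖ]).map L.φ) •
        (⊤ : Submodule (MvPowerSeries (Fin r) 𝒪) L.N)) := by
  have := finite_N L
  let : Module 𝒪 L.N := Module.compHom L.N (algebraMap 𝒪 (MvPowerSeries (Fin r) 𝒪))
  have hsm : ∀ (a : 𝒪) (x : L.N), a • x = (C a : MvPowerSeries (Fin r) 𝒪) • x := fun a x => rfl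
  have : IsScalarTower 𝒪 (MvPowerSeries (Fin r) 𝒪) L.N := ⟨fun a f x => by
    rw [hsm, Algebra.smul_def, mul_smul]
    rfl⟩
  rw [isFiniteLength_iff_isNoetherian_isArtinian]
  refine ⟨inferInstance, isArtinian_of_tower 𝒪 ?_⟩
  refine isArtinian_of_span_of_torsion (fun i => Submodule.Quotient.mk (L.b i)) ?_ ?_
  · intro x
    induction x using Submodule.Quotient.induction_on with
    | _ x =>
      obtain ⟨c, rfl⟩ := L.b_span x
      refine ⟨fun i => constantCoeff (c i), ?_⟩
      simp only [← Submodule.Quotient.mk_smul]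
      rw [← Submodule.mkQ_apply, map_sum]
      refine Finset.sum_congr rfl fun i _ => ?_
      rw [Submodule.mkQ_apply, Submodule.Quotient.eq, hsm, ← sub_smul]
      refine Submodule.smul_mem_smul ?_ Submodule.mem_top
      have h1 : c i - C (constantCoeff (c i)) ∈ maximalIdeal (MvPowerSeries (Fin r) 𝒪) := by
        rw [mem_maximalIdeal_iff]
        simp
      have h2 := phi_mem_ofList L ϖ hϖ _ h1
      rwa [map_sub, phi_C] at h2
  · intro a ha x
    induction x using Submodule.Quotient.induction_on with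
    | _ x =>
      rw [← Submodule.Quotient.mk_smul, Submodule.Quotient.mk_eq_zero, hsm]
      refine Submodule.smul_mem_smul ?_ Submodule.mem_top
      have h1 : (C a : MvPowerSeries (Fin r) 𝒪) ∈ maximalIdeal (MvPowerSeries (Fin r) 𝒪) := by
        rw [mem_maximalIdeal_iff]
        simpa using ha
      have h2 := phi_mem_ofList L ϖ hϖ _ h1
      rwa [phi_C] at h2

theorem free_N [Nontrivial M] : Module.Free (MvPowerSeries (Fin r) 𝒪) L.N := by
  obtain ⟨ϖ, hϖ⟩ := IsDiscreteValuationRing.exists_irreducible 𝒪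
  have := finite_N L
  have : Nontrivial L.N := L.π_surjective.nontrivial
  have hts := isWeaklyRegular_X_C ϖ hϖ.ne_zero r
  have htm := ofList_X_C_eq_maximalIdeal ϖ hϖ r
  have hmem : ∀ t ∈ (List.ofFn (X : Fin r → MvPowerSeries (Fin r) 𝒪) ++ [C ϖ]),
      t ∈ maximalIdeal (MvPowerSeries (Fin r) 𝒪) := by
    intro t ht
    rw [← htm]
    exact Ideal.subset_span ht
  have hreg := IsRegular.of_isWeaklyRegular_of_mem_maximalIdeal _ hmem hts
  refine free_of_isWeaklyRegular _ hreg htm L.N _ (isWeaklyRegular_N L _ hts) ?_ (by simp)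
    (isFiniteLength_quot L ϖ hϖ)
  intro a ha
  obtain ⟨t, ht, rfl⟩ := List.mem_map.mp ha
  rcases List.mem_append.mp ht with ht | ht
  · obtain ⟨i, rfl⟩ := (List.mem_ofFn).mp ht
    rw [IsLocalRing.mem_maximalIdeal, mem_nonunits_iff]
    intro hu
    have h0 : IsUnit (L.ψ (L.φ (X i))) := hu.map L.ψ
    rw [L.ψ_φ_X, isUnit_zero_iff] at h0
    have : Subsingleton R := subsingleton_of_zero_eq_one h0
    exact not_subsingleton M (Module.subsingleton R M)
  · rw [List.mem_singleton] at ht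
    subst ht
    rw [phi_C]
    exact hmem _ (by simp)

end

theorem result
    {𝒪 : Type} [CommRing 𝒪] [IsDomain 𝒪] [IsDiscreteValuationRing 𝒪]
    {r : ℕ} {R : Type} [CommRing R] [Algebra 𝒪 R]
    {M : Type} [AddCommGroup M] [Module R M] [Nontrivial M]
    (L : Algebra.PatchingLevel 𝒪 r R M ⊥) :
    Module.Free R M ∧ Module.annihilator R M = ⊥ ∧
      RingHom.ker L.ψ = Ideal.span (Set.range fun i : Fin r => L.φ (MvPowerSeries.X i)) := by
  have := free_N L
  refine descent (L.ψ : MvPowerSeries (Fin r) 𝒪 →+* R) L.ψ_surjective _ ?_ L.π L.π_smul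
    L.π_surjective L.ker_π
  rw [Ideal.span_le]
  rintro _ ⟨i, rfl⟩
  exact L.ψ_φ_X i

end Fermat.Agent.S57
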